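import Fermat.Agent.S40.GapwInertia
import Fermat.Agent.S40.GapwToric
import Fermat.Agent.S34.DegLe2
import Fermat.Agent.S36.Inst.ZT
import Fermat.Agent.S24.PlaceOfOrder

/-!
# S40 / S44, COV, block (FIX): inertia fixes the sheets of the cover (leaf)
-/

set_option autoImplicit false
set_option synthInstance.maxHeartbeats 400000
set_option linter.unusedSectionVars false
set_option maxHeartbeats 400000

open AlgebraicCurve IntermediateField ModularCurve
  Fermat.Agent.S24Lib Fermat.Agent.FFLib Fermat.Agent.S18Lib Fermat.Agent.S28Lib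
  Fermat.Agent.ESLib Fermat.Agent.S34Lib Fermat.Agent.S36Lib Fermat.Agent.S33Lib

namespace Fermat.Agent.S40Lib


noncomputable section

/-- a `p`-th root of `1 + lam ^ p ρ` is `1 + lam e₁` -/
theorem FX8_root (p : ℕ) (hp : p.Prime) (A : ValuationSubring Qb) (hA : A.LiesOverPrime p)
    (lam : A) (hlam : lam ^ (p - 1) = -(p : A))
    (e : Qb) (ρ : A) (he : e ^ p = 1 + (lam : Qb) ^ p * ρ) :
    ∃ e₁ : A, e = 1 + (lam : Qb) * e₁ := by
  have hp1 : p - 1 ≠ 0 := by have := hp.two_le; omega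
  have hpp : p - 1 + 1 = p := by have := hp.two_le; omega
  have hp0 : (p : Qb) ≠ 0 := by exact_mod_cast hp.ne_zero
  have hlamQ : (lam : Qb) ^ (p - 1) = -(p : Qb) := by
    have := congrArg (fun z : A => (z : Qb)) hlam
    simpa using this
  have hlam0 : (lam : Qb) ≠ 0 := by
    intro h
    rw [h, zero_pow hp1] at hlamQ
    exact hp0 (neg_eq_zero.1 hlamQ.symm)
  have hvlam : A.valuation (lam : Qb) ^ (p - 1) = A.valuation (p : Qb) := by
    rw [← map_pow, hlamQ, Valuation.map_neg]
  set d : Qb := e - 1 with hd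
  have hed : e = 1 + d := by rw [hd]; ring
  have hle : A.valuation d ≤ A.valuation (lam : Qb) := by
    by_contra hcon
    rw [not_le] at hcon
    have heA : e ∈ A := by
      rw [← A.valuation_le_one_iff]
      have h1 : A.valuation e ^ p ≤ 1 := by
        rw [← map_pow, he, A.valuation_le_one_iff]
        exact add_mem (one_mem A) (mul_mem (pow_mem lam.2 p) ρ.2)
      exact (pow_le_one_iff_of_nonneg zero_le hp.ne_zero).1 h1
    have hdA : d ∈ A := sub_mem heA (one_mem A)
    obtain ⟨Q, hQ⟩ := xs_binom hp (1 : A) ⟨d, hdA⟩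
    have hQ' : (1 + d) ^ p = 1 + d ^ p + p * d * (1 + d * (Q : Qb)) := by
      have := congrArg (fun z : A => (z : Qb)) hQ
      simpa using this
    have hd0 : d ≠ 0 := by
      intro h0
      rw [h0, map_zero] at hcon
      exact not_lt_zero hcon
    have hvd0 : A.valuation d ≠ 0 := (Valuation.ne_zero_iff _).2 hd0
    have h2 : A.valuation ((p : Qb) * d * (1 + d * (Q : Qb))) < A.valuation (d ^ p) := by
      have h3 : A.valuation (1 + d * (Q : Qb)) ≤ 1 :=
        (A.valuation_le_one_iff _).2 (add_mem (one_mem A) (mul_mem hdA Q.2))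
      calc A.valuation ((p : Qb) * d * (1 + d * (Q : Qb)))
          = A.valuation (lam : Qb) ^ (p - 1) * A.valuation d * A.valuation (1 + d * (Q : Qb)) := by
            rw [map_mul, map_mul, hvlam]
        _ ≤ A.valuation (lam : Qb) ^ (p - 1) * A.valuation d * 1 := mul_le_mul_right h3 _
        _ = A.valuation (lam : Qb) ^ (p - 1) * A.valuation d := mul_one _
        _ < A.valuation d ^ (p - 1) * A.valuation d := by
            apply mul_lt_mul_of_pos_right _ (zero_lt_iff.2 hvd0)
            exact pow_lt_pow_left₀ hcon zero_le hp1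
        _ = A.valuation (d ^ p) := by rw [← pow_succ, hpp, map_pow]
    have h4 : A.valuation (d ^ p + (p : Qb) * d * (1 + d * (Q : Qb))) = A.valuation (d ^ p) :=
      Valuation.map_add_eq_of_lt_left _ h2
    have h5 : d ^ p + (p : Qb) * d * (1 + d * (Q : Qb)) = (lam : Qb) ^ p * ρ := by
      have : (1 + d) ^ p = 1 + (lam : Qb) ^ p * ρ := by rw [← hed, he]
      rw [hQ'] at this
      linear_combination this
    rw [h5, map_mul, map_pow, map_pow] at h4
    have h6 : A.valuation (lam : Qb) ^ p * A.valuation (ρ : Qb) ≤ A.valuation (lam : Qb) ^ p := by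
      calc _ ≤ A.valuation (lam : Qb) ^ p * 1 :=
            mul_le_mul_right ((A.valuation_le_one_iff _).2 ρ.2) _
        _ = _ := mul_one _
    rw [h4] at h6
    exact absurd (pow_lt_pow_left₀ hcon zero_le hp.ne_zero) (not_lt.2 h6)
  have hmem : d / (lam : Qb) ∈ A := by
    rw [← A.valuation_le_one_iff, map_div₀]
    exact div_le_one_of_le₀ hle zero_le
  refine ⟨⟨_, hmem⟩, ?_⟩
  show e = 1 + (lam : Qb) * (d / (lam : Qb))
  rw [mul_div_cancel₀ _ hlam0, hed]

/-- (FX8) `S40/Fix/Scalar.lean` : the scalar computation at the cusp -/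
theorem FX_scalar (p : ℕ) (hp : p.Prime) (A : ValuationSubring Qb) (hA : A.LiesOverPrime p)
    (σ : GQ) (hσ : σ ∈ A.inertiaSubgroupIn ℚ) (lam θ : A) (hlam : lam ^ (p - 1) = -(p : A))
    (j : ℕ) (hθ : σ (lam : Qb) = θ * lam) (hθj : IsLocalRing.residue A θ = (j : kk A))
    (e : Qb) (ρ : A) (he : e ^ p = 1 + (lam : Qb) ^ p * ρ) :
    ∃ μ : A, IsLocalRing.residue A μ = 0 ∧ σ e * e ^ (j * (p - 1)) = 1 + (lam : Qb) * μ := by
  haveI := charP_kk hp hA
  have hp1 : p - 1 ≠ 0 := by have := hp.two_le; omega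
  have hpp : 1 + (p - 1) = p := by have := hp.two_le; omega
  obtain ⟨e₁, he₁⟩ := FX8_root p hp A hA lam hlam e ρ he
  obtain ⟨hs1, hs2⟩ := inertia_mem hσ e₁.2
  set e₁' : A := ⟨σ (e₁ : Qb), hs1⟩ with he₁'
  have hres : IsLocalRing.residue A e₁' = IsLocalRing.residue A e₁ := by
    rw [← sub_eq_zero, ← map_sub, IsLocalRing.residue_eq_zero_iff, A.valuation_lt_one_iff]
    exact (A.mem_nonunits_iff).1 hs2
  have hreslam : IsLocalRing.residue A lam = 0 := by
    have h1 := congrArg (IsLocalRing.residue A) hlam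
    rw [map_pow, map_neg, map_natCast, CharP.cast_eq_zero, neg_zero] at h1
    exact (pow_eq_zero_iff hp1).1 h1
  obtain ⟨Q, hQ⟩ := GW6_pow lam e₁ (j * (p - 1))
  set m₂ : A := ((j * (p - 1) : ℕ) : A) * e₁ + lam * Q with hm₂
  refine ⟨θ * e₁' + m₂ + lam * (θ * e₁' * m₂), ?_, ?_⟩
  · rw [hm₂]
    simp only [map_add, map_mul, hreslam, zero_mul, add_zero, hθj, hres, map_natCast]
    rw [← add_mul, ← Nat.cast_add]
    have : j + j * (p - 1) = p * j := by
      calc j + j * (p - 1) = j * (1 + (p - 1)) := by ring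
        _ = p * j := by rw [hpp, mul_comm]
    rw [this, Nat.cast_mul, CharP.cast_eq_zero, zero_mul, zero_mul]
  · have hQ' : (1 + (lam : Qb) * e₁) ^ (j * (p - 1)) = 1 + (lam : Qb) * (m₂ : Qb) := by
      have := congrArg (fun z : A => (z : Qb)) hQ
      simpa [hm₂] using this
    rw [he₁, hQ', map_add, map_one, map_mul, hθ]
    show (1 + (θ : Qb) * lam * (e₁' : Qb)) * (1 + (lam : Qb) * (m₂ : Qb)) =
      1 + (lam : Qb) * ((θ : Qb) * (e₁' : Qb) + (m₂ : Qb) + (lam : Qb) * ((θ : Qb) * (e₁' : Qb) * (m₂ : Qb)))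
    ring

end

end Fermat.Agent.S40Lib
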