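import Fermat.Agent.S40.Fix.Eval
import Fermat.Agent.S40.Fix.Scalar

/-!
# S40 / S44, COV, block (FIX), leaf (FX11): the shift vanishes (evaluation at the cusp)
-/

set_option autoImplicit false
set_option synthInstance.maxHeartbeats 400000
set_option linter.unusedSectionVars false
set_option maxHeartbeats 400000

open AlgebraicCurve IntermediateField ModularCurve
  Fermat.Agent.S24Lib Fermat.Agent.FFLib Fermat.Agent.S18Lib Fermat.Agent.S28Lib
  Fermat.Agent.ESLib Fermat.Agent.S34Lib Fermat.Agent.S36Lib Fermat.Agent.S33Lib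

namespace Fermat.Agent.S40Lib

noncomputable section

theorem FX_coeff_zero_coe {κ : Type*} [Field κ] (P : PowerSeries κ) :
    (P : LaurentSeries κ).coeff 0 = PowerSeries.constantCoeff P := by
  rw [PowerSeries.coeff_coe]
  simp

theorem FX_coeffMap_coe (σ : Qb →+* Qb) (P : PowerSeries Qb) :
    coeffMap σ (P : LaurentSeries Qb) = ((P.map σ : PowerSeries Qb) : LaurentSeries Qb) := by
  ext n
  rw [coeffMap_coeff, PowerSeries.coeff_coe, PowerSeries.coeff_coe]
  split_ifs
  · exact map_zero σ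
  · rw [PowerSeries.coeff_map]

variable {M p : ℕ} [NeZero M] [NeZero p] [hpF : Fact p.Prime] {hpM : ¬ p ∣ M}
variable {A : ValuationSubring Qb}
variable {R : RedG A (IsLocalRing.residue A) (FB (p * M)) (FT A M × FT A M)}

theorem FX_coe_one_add (a : A) (f : R.O) (P : PowerSeries Qb)
    (hP : (((f : R.O) : FB (p * M)) : LaurentSeries Qb) = (P : LaurentSeries Qb)) :
    (((1 + R.const a * f : R.O) : FB (p * M)) : LaurentSeries Qb)
      = ((1 + PowerSeries.C (a : Qb) * P : PowerSeries Qb) : LaurentSeries Qb) := by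
  have e : (((1 + R.const a * f : R.O) : FB (p * M)) : LaurentSeries Qb)
      = 1 + HahnSeries.C (a : Qb) * (((f : R.O) : FB (p * M)) : LaurentSeries Qb) := by
    rw [← algebraMap_eq_C]
    rfl
  rw [e, hP, PowerSeries.coe_add, PowerSeries.coe_mul, PowerSeries.coe_one, PowerSeries.coe_C]

/-- (FX11) `S40/Fix/Cusp.lean` : the shift vanishes (evaluation at the cusp, second chart) -/
theorem FX_cusp (hA : A.LiesOverPrime p) (hR : IsQRed2 M p hpM A R)
    (σ : GQ) (hσ : σ ∈ A.inertiaSubgroupIn ℚ) (lam θ : A) (hlam : lam ^ (p - 1) = -(p : A))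
    (j : ℕ) (hθ : σ (lam : Qb) = θ * lam) (hθj : IsLocalRing.residue A θ = (j : kk A))
    (n n' : ℕ) (r₂ g₂ : R.O)
    (hr₂ : ((r₂ : R.O) : FB (p * M)) ∈ riemannRochSpace (maE Qb (jN M p * jQ M p) 0 n))
    (hg₂ : ((g₂ : R.O) : FB (p * M)) ∈ riemannRochSpace (maE Qb (jN M p * jQ M p) 0 n'))
    (η₂ : LaurentSeries Qb)
    (hη₂ : η₂ ^ p = (((1 + R.const (lam ^ p) * r₂ : R.O) : FB (p * M)) : LaurentSeries Qb))
    (hG : coeffMap ((σ : GQ) : Qb →+* Qb) η₂ * η₂ ^ (j * (p - 1)) =
      (((1 + R.const lam * g₂ : R.O) : FB (p * M)) : LaurentSeries Qb))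
    (c : A) (hc : R.red g₂ = algebraMap (kk A) (FT A M × FT A M) (IsLocalRing.residue A c)) :
    IsLocalRing.residue A c = 0 := by
  have hp : p.Prime := hpF.out
  have hFF := isFF_FB (p * M)
  have hlam0 : (lam : Qb) ≠ 0 := by
    intro h
    have h1 : lam = 0 := Subtype.ext h
    rw [h1, zero_pow (Nat.sub_ne_zero_of_lt hp.one_lt)] at hlam
    have h2 : ((p : A) : Qb) = 0 := by
      have : (p : A) = 0 := by
        have := congrArg (fun t => -t) hlam
        simpa using this.symm
      rw [this]; rfl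
    have h3 : ((p : ℕ) : Qb) = 0 := by simpa using h2
    exact hp.ne_zero (by exact_mod_cast h3)
  obtain ⟨Pr, hPr, hρ, -⟩ := FX_eval hA hR r₂ n hr₂
  obtain ⟨Pg, hPg, hγ, -⟩ := FX_eval hA hR g₂ n' hg₂
  rw [FX_coe_one_add (lam ^ p) r₂ Pr hPr] at hη₂
  rw [FX_coe_one_add lam g₂ Pg hPg] at hG
  set ρ : A := ⟨_, hρ⟩ with hρd
  set γ : A := ⟨_, hγ⟩ with hγd
  -- the constant term of `y₂` is not zero
  have hlamres : IsLocalRing.residue A lam = 0 := by
    have h1 : IsLocalRing.residue A lam ^ (p - 1) = 0 := by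
      rw [← map_pow, hlam, map_neg, map_natCast]
      have := charP_kk hp hA
      rw [CharP.cast_eq_zero, neg_zero]
    exact pow_eq_zero_iff (Nat.sub_ne_zero_of_lt hp.one_lt) |>.1 h1
  have hy0 : (1 : Qb) + ((lam ^ p : A) : Qb) * (ρ : Qb) ≠ 0 := by
    intro h
    have h1 : (1 + lam ^ p * ρ : A) = 0 := Subtype.ext (by push_cast; simpa using h)
    have h2 := congrArg (IsLocalRing.residue A) h1
    rw [map_add, map_mul, map_pow, hlamres, zero_pow hp.ne_zero, zero_mul, add_zero, map_one,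
      map_zero] at h2
    exact one_ne_zero h2
  have hyc : PowerSeries.constantCoeff (1 + PowerSeries.C ((lam ^ p : A) : Qb) * Pr)
      = 1 + ((lam ^ p : A) : Qb) * (ρ : Qb) := by
    simp [hρd]
  have hη0 : η₂ ≠ 0 := by
    intro h
    rw [h, zero_pow hp.ne_zero] at hη₂
    have h1 := congrArg (fun f : LaurentSeries Qb => f.coeff 0) hη₂
    simp only [FX_coeff_zero_coe, hyc, HahnSeries.coeff_zero] at h1
    exact hy0 h1.symm
  have hord : η₂.order = 0 := by
    have h1 : (η₂ ^ p).order = p • η₂.order := HahnSeries.order_pow η₂ p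
    have h2 : (η₂ ^ p).order = 0 := by
      rw [hη₂]
      apply le_antisymm
      · apply HahnSeries.order_le_of_coeff_ne_zero
        rw [FX_coeff_zero_coe, hyc]
        exact hy0
      · refine (HahnSeries.le_order_iff_forall ?_).2 ?_
        · intro h
          have h1 := congrArg (fun f : LaurentSeries Qb => f.coeff 0) h
          simp only [FX_coeff_zero_coe, hyc, HahnSeries.coeff_zero] at h1
          exact hy0 h1
        · intro i hi
          rw [PowerSeries.coeff_coe, if_pos hi]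
    rw [h2, nsmul_eq_mul] at h1
    have hpz : (p : ℤ) ≠ 0 := by exact_mod_cast hp.ne_zero
    exact (mul_eq_zero.1 h1.symm).resolve_left hpz
  obtain ⟨Q, hQ, hQc⟩ := FX_exists_powerSeries η₂ hord.ge
  set e : Qb := PowerSeries.constantCoeff Q with he
  have hinj : Function.Injective (fun P : PowerSeries Qb => (P : LaurentSeries Qb)) :=
    HahnSeries.ofPowerSeries_injective
  have h1 : Q ^ p = 1 + PowerSeries.C ((lam ^ p : A) : Qb) * Pr := by
    apply hinj
    change ((Q ^ p : PowerSeries Qb) : LaurentSeries Qb) = _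
    rw [PowerSeries.coe_pow, ← hQ, hη₂]
  have h2 : Q.map ((σ : GQ) : Qb →+* Qb) * Q ^ (j * (p - 1)) = 1 + PowerSeries.C (lam : Qb) * Pg := by
    apply hinj
    change ((Q.map ((σ : GQ) : Qb →+* Qb) * Q ^ (j * (p - 1)) : PowerSeries Qb) : LaurentSeries Qb) = _
    rw [PowerSeries.coe_mul, PowerSeries.coe_pow, ← FX_coeffMap_coe, ← hQ, hG]
  have he1 : e ^ p = 1 + (lam : Qb) ^ p * ρ := by
    have := congrArg PowerSeries.constantCoeff h1
    rw [map_pow, hyc] at this
    rw [he, this]
    push_cast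
    rfl
  have he2 : σ e * e ^ (j * (p - 1)) = 1 + (lam : Qb) * γ := by
    have := congrArg PowerSeries.constantCoeff h2
    rw [map_mul, map_pow] at this
    have e3 : PowerSeries.constantCoeff (Q.map ((σ : GQ) : Qb →+* Qb)) = σ e := by
      rw [← PowerSeries.coeff_zero_eq_constantCoeff_apply, PowerSeries.coeff_map,
        PowerSeries.coeff_zero_eq_constantCoeff_apply]
      rfl
    rw [e3] at this
    rw [this]
    simp [hγd]
  obtain ⟨μ, hμ, hμe⟩ := FX_scalar p hp A hA σ hσ lam θ hlam j hθ hθj e ρ he1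
  have hγμ : γ = μ := by
    apply Subtype.ext
    have : (lam : Qb) * γ = (lam : Qb) * μ := by
      have := he2.symm.trans hμe
      exact add_left_cancel this
    exact mul_left_cancel₀ hlam0 this
  -- `g₂ - c` has reduction `0`
  have hd : ((g₂ - R.const c : R.O) : FB (p * M)) ∈
      riemannRochSpace (maE Qb (jN M p * jQ M p) 0 n') := by
    have e4 : ((g₂ - R.const c : R.O) : FB (p * M))
        = ((g₂ : R.O) : FB (p * M)) - (c : Qb) • (1 : FB (p * M)) := by
      rw [Algebra.smul_def, mul_one]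
      rfl
    rw [e4]
    exact Submodule.sub_mem _ hg₂ (Submodule.smul_mem _ _ (ma_one_mem hFF _ _ _))
  obtain ⟨Pd, hPd, hδ, hδr⟩ := FX_eval hA hR (g₂ - R.const c) n' hd
  have hred0 : R.red (g₂ - R.const c) = 0 := by
    rw [map_sub, RedG.red_const, hc, sub_self]
  have h5 := hδr hred0
  have h6 : PowerSeries.constantCoeff Pd = (γ : Qb) - c := by
    rw [← FX_coeff_zero_coe, ← hPd]
    have e5 : (((g₂ - R.const c : R.O) : FB (p * M)) : LaurentSeries Qb)
        = (((g₂ : R.O) : FB (p * M)) : LaurentSeries Qb) - HahnSeries.C (c : Qb) := by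
      rw [← algebraMap_eq_C]
      rfl
    rw [e5, hPg, HahnSeries.coeff_sub, FX_coeff_zero_coe, HahnSeries.C_apply,
      HahnSeries.coeff_single_same]
  have h7 : (⟨_, hδ⟩ : A) = γ - c := Subtype.ext h6
  rw [h7, map_sub, hγμ, hμ, zero_sub, neg_eq_zero] at h5
  exact h5

end

end Fermat.Agent.S40Lib
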