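import Fermat.Agent.S34.Connected3
import Fermat.Agent.S34.EvP

/-!
# S40 / S44, COV, block (FIX), (FX7): a regular function whose reduction is fixed by Frobenius
reduces to a diagonal constant
-/

set_option autoImplicit false
set_option synthInstance.maxHeartbeats 400000
set_option linter.unusedSectionVars false
set_option maxHeartbeats 400000

open AlgebraicCurve IntermediateField
  Fermat.Agent.S24Lib Fermat.Agent.FFLib Fermat.Agent.S18Lib
  Fermat.Agent.S34Lib

namespace Fermat.Agent.S40Lib

/-- a root of `X ^ p - X` in an extension of an algebraically closed field is a constant -/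
theorem FX7_const {k L : Type*} [Field k] [Field L] [Algebra k L] [IsAlgClosed k] {p : ℕ}
    (hp : 1 < p) (φ : L) (h : φ ^ p = φ) : ∃ c : k, φ = algebraMap k L c := by
  have hint : IsIntegral k φ := by
    refine ⟨Polynomial.X ^ p - Polynomial.X, Polynomial.monic_X_pow_sub (by
      rw [Polynomial.degree_X]
      exact_mod_cast hp), ?_⟩
    rw [Polynomial.eval₂_sub, Polynomial.eval₂_pow, Polynomial.eval₂_X, h, sub_self]
  have h1 := minpoly.mem_range_of_degree_eq_one k φ
    (IsAlgClosed.degree_eq_one_of_irreducible k (minpoly.irreducible hint))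
  obtain ⟨c, hc⟩ := h1
  exact ⟨c, hc.symm⟩

section abstract

variable {K k F Φ : Type*} [Field K] [Field k] [Field F] [Algebra K F] [CommRing Φ] [Algebra k Φ]
  {A : ValuationSubring K} {resK : A →+* k}

/-- (FX7) `S40/Fix/Glued.lean` : a function regular outside the poles of `x` whose reduction `φ`
satisfies `φ ^ p = φ` reduces to a (diagonal) constant -/
theorem FX_glued {Ft : Type*} [Field Ft] [Algebra k Ft] [IsAlgClosed K] [IsAlgClosed k]
    (hF : IsFF K F) (hFt : IsFF k Ft) {p : ℕ} [Fact p.Prime] [CharP k p]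
    (hres : Function.Surjective resK) (R : RedG A resK F (Ft × Ft)) (x : R.O)
    (S : Finset (Place k Ft × Place k Ft)) (n₀ : ℕ)
    (hS : IsNodeData (R.red x).1 (R.red x).2 S) (hW : HW R hres x S n₀)
    (g : R.O) (n : ℕ) (hg : ((g : R.O) : F) ∈ riemannRochSpace (maE K ((x : R.O) : F) n 0))
    (hgp : R.red g ^ p = R.red g) :
    ∃ c : A, R.red g = algebraMap k (Ft × Ft) (resK c) := by
  have hp : p.Prime := Fact.out
  obtain ⟨c₁, hc₁⟩ := FX7_const (k := k) hp.one_lt (R.red g).1 (congrArg Prod.fst hgp)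
  obtain ⟨c₂, hc₂⟩ := FX7_const (k := k) hp.one_lt (R.red g).2 (congrArg Prod.snd hgp)
  rw [CN3_maE_left] at hg
  have hmono : riemannRochSpace (n • poleDiv K ((x : R.O) : F)) ≤
      riemannRochSpace ((max n n₀) • poleDiv K ((x : R.O) : F)) := by
    apply L_mono
    exact nsmul_le_nsmul_left (dg_poleDiv_nonneg hF _) (le_max_left n n₀)
  have h1 : R.red g ∈ redSp R hres (riemannRochSpace ((max n n₀) • poleDiv K ((x : R.O) : F))) :=
    red_mem_redSp hres (hmono hg)
  have h2 := ((hW (max n n₀) (le_max_right n n₀) (R.red g)).1 h1).2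
  obtain ⟨s, hs⟩ := hS.nonempty
  have h3 := h2 s hs
  rw [hc₁, hc₂, evP_algebraMap, evP_algebraMap, one_mul] at h3
  obtain ⟨c, hc⟩ := hres c₁
  refine ⟨c, ?_⟩
  rw [hc]
  apply Prod.ext
  · rw [hc₁]
    rfl
  · rw [hc₂, ← h3]
    rfl

end abstract

end Fermat.Agent.S40Lib
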