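import Fermat.Agent.S40.GapwInertia
import Fermat.Agent.S40.GapwToric
import Fermat.Agent.S34.DegLe2
import Fermat.Agent.S36.Inst.ZT
import Fermat.Agent.S24.PlaceOfOrder

/-!
# S40 / S44, COV, block (FIX): inertia fixes the sheets of the cover (leaf)
-/

set_option autoImplicit false
set_option synthInstance.maxHeartbeats 400000
set_option linter.unusedSectionVars false
set_option maxHeartbeats 400000

open AlgebraicCurve IntermediateField ModularCurve
  Fermat.Agent.S24Lib Fermat.Agent.FFLib Fermat.Agent.S18Lib Fermat.Agent.S28Lib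
  Fermat.Agent.ESLib Fermat.Agent.S34Lib Fermat.Agent.S36Lib Fermat.Agent.S33Lib

namespace Fermat.Agent.S40Lib


section abstract

variable {K k F Φ : Type*} [Field K] [Field k] [Field F] [Algebra K F] [CommRing Φ] [Algebra k Φ]
  {A : ValuationSubring K} {resK : A →+* k}

section main

variable [Nontrivial Φ] [IsReduced Φ] [IsAlgClosed K] [IsAlgClosed k] {p : ℕ} [Fact p.Prime]
  [CharP k p] (R : RedG A resK F Φ)

/-- (FX5) `S40/Fix/Ratio.lean` : `τ k / k ^ j ≡ 1 mod lam 𝔪` for `k = 1 + lam k₁` -/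
theorem FX_ratio
    (τ : SemilinearAut K F)
    (hτO : ∀ y : R.O, ∃ hy : τ • ((y : R.O) : F) ∈ R.O, R.red ⟨_, hy⟩ = R.red y)
    (lam θ : A) (hlam0 : resK lam = 0) (j : ℕ)
    (hθ : SemilinearAut.baseAut τ (lam : K) = θ * lam) (hθj : resK θ = (j : k)) (k₁ : R.O) :
    ∃ c : R.O, R.red c = 0 ∧
      τ • ((1 + R.const lam * k₁ : R.O) : F) =
        ((1 + R.const lam * k₁ : R.O) : F) ^ j * ((1 + R.const lam * c : R.O) : F) := by
  obtain ⟨hk', hk'r⟩ := hτO k₁
  set k₁' : R.O := ⟨_, hk'⟩ with hk₁'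
  obtain ⟨Q, hQ⟩ := GW6_pow (R.const lam) k₁ j
  have hredl : R.red (R.const lam) = 0 := by rw [R.red_const, hlam0, map_zero]
  have hu : IsUnit ((1 + R.const lam * k₁) ^ j) := by
    apply R.isUnit_of_red
    rw [map_pow, map_add, map_one, map_mul, hredl, zero_mul, add_zero, one_pow]
    exact isUnit_one
  obtain ⟨u, hu⟩ := hu
  set num : R.O := R.const θ * k₁' - (j : R.O) * k₁ - R.const lam * Q with hnum
  refine ⟨num * ((u⁻¹ : (R.O)ˣ) : R.O), ?_, ?_⟩
  · rw [map_mul, hnum, map_sub, map_sub, map_mul, map_mul, map_mul, hredl, zero_mul, sub_zero,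
      R.red_const, hθj, hk'r, map_natCast, map_natCast, sub_self, zero_mul]
  · have e1 : τ • ((1 + R.const lam * k₁ : R.O) : F)
        = ((1 + R.const θ * R.const lam * k₁' : R.O) : F) := by
      show τ • ((1 : F) + algebraMap K F (lam : K) * ((k₁ : R.O) : F)) =
        1 + algebraMap K F (θ : K) * algebraMap K F (lam : K) * (τ • ((k₁ : R.O) : F))
      rw [smul_add, smul_one, smul_mul', SemilinearAut.smul_algebraMap, hθ, map_mul]
    have e2 : (1 + R.const θ * R.const lam * k₁' : R.O) =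
        (1 + R.const lam * k₁) ^ j * (1 + R.const lam * (num * ((u⁻¹ : (R.O)ˣ) : R.O))) := by
      have h1 : (1 + R.const lam * k₁) ^ j * ((u⁻¹ : (R.O)ˣ) : R.O) = 1 := by
        rw [← hu]; exact u.mul_inv
      calc (1 + R.const θ * R.const lam * k₁' : R.O)
          = (1 + R.const lam * ((j : R.O) * k₁ + R.const lam * Q)) + R.const lam * num := by
            rw [hnum]; ring
        _ = (1 + R.const lam * k₁) ^ j
              + R.const lam * num * ((1 + R.const lam * k₁) ^ j * ((u⁻¹ : (R.O)ˣ) : R.O)) := by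
            rw [h1, hQ, mul_one]
        _ = _ := by ring
    rw [e1, e2]
    rfl

end main

end abstract

end Fermat.Agent.S40Lib
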