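import Fermat.Agent.S40.GapwToric
import Fermat.Agent.S40.Fix.Rep2

/-!
# S40 / S44, COV, block (FIX), (FX12): the toric form in both charts
-/

set_option autoImplicit false
set_option synthInstance.maxHeartbeats 400000
set_option linter.unusedSectionVars false
set_option maxHeartbeats 400000

open AlgebraicCurve IntermediateField ModularCurve
  Fermat.Agent.S24Lib Fermat.Agent.FFLib Fermat.Agent.S18Lib Fermat.Agent.S28Lib
  Fermat.Agent.ESLib Fermat.Agent.S34Lib Fermat.Agent.S36Lib Fermat.Agent.S33Lib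

namespace Fermat.Agent.S40Lib

noncomputable section

variable {M p : ℕ} [NeZero M] [NeZero p] [hpF : Fact p.Prime] {hpM : ¬ p ∣ M}
variable {A : ValuationSubring Qb}
variable {R : RedG A (IsLocalRing.residue A) (FB (p * M)) (FT A M × FT A M)}

variable (M p hpM A)

/-- (FX12) `S40/Fix/Toric2.lean` : the toric form in both charts (copy of `exists_toricForm`) -/
theorem exists_toricForm2 (hbase : 2 ∣ M ∨ 3 ∣ M) (hA : A.LiesOverPrime p)
    (R : RedG A (IsLocalRing.residue A) (FB (p * M)) (FT A M × FT A M))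
    (hR : IsQRed2 M p hpM A R) (lam : A) (hlam : lam ^ (p - 1) = -(p : A))
    (h : FB (p * M)) (hK : IsKum (p * M) p h) (h1 : GOne A (h : LaurentSeries Qb))
    (h2 : GOne A ((wq M p hpM h : FB (p * M)) : LaurentSeries Qb))
    (a₁ a₂ : FB M) (hn1 : nrm (pi1 M p) h = a₁ ^ p) (hn2 : nrm (pi1 M p) (wq M p hpM h) = a₂ ^ p) :
    ∃ (n : ℕ) (g : FB (p * M)) (r r₂ k₁ : R.O) (t₁ t₂ : FT A M), g ≠ 0 ∧
      g ^ p * h = ((1 + R.const (lam ^ p) * r : R.O) : FB (p * M)) ∧
      ((r : R.O) : FB (p * M)) ∈ riemannRochSpace (maE Qb (jN M p * jQ M p) (p * n) 0) ∧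
      R.red r = (t₁ ^ p - t₁, t₂ ^ p - t₂) ∧
      ((r₂ : R.O) : FB (p * M)) ∈ riemannRochSpace (maE Qb (jN M p * jQ M p) 0 (p * n)) ∧
      (1 + R.const (lam ^ p) * r) * (1 + R.const lam * k₁) ^ p = 1 + R.const (lam ^ p) * r₂ := by
  have := isAlgClosed_kk A
  have : CharP (kk A) p := charP_kk hpF.out hA
  have hp := hpF.out
  have hp1 : p - 1 ≠ 0 := by have := hp.two_le; omega
  by_cases hpow : ∃ a : FB (p * M), h = a ^ p
  · obtain ⟨a, ha⟩ := hpow
    have ha0 : a ≠ 0 := by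
      intro h0
      rw [h0, zero_pow hp.ne_zero] at ha
      exact hK.1 ha
    refine ⟨0, a⁻¹, 0, 0, 0, 0, 0, inv_ne_zero ha0, ?_, ?_, ?_, ?_, ?_⟩
    · rw [ha, ← mul_pow, inv_mul_cancel₀ ha0, one_pow, mul_zero, add_zero]
      rfl
    · exact Submodule.zero_mem _
    · rw [map_zero, zero_pow hp.ne_zero, sub_zero]
      rfl
    · exact Submodule.zero_mem _
    · rw [mul_zero, mul_zero, add_zero, one_pow, one_mul]
  obtain ⟨h1m, h1r⟩ := h1
  obtain ⟨h2m, h2r⟩ := h2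
  let u : R.O := ⟨h, (hR.mem_iff h).2 ⟨h1m, h2m⟩⟩
  have hu : R.red u = 1 := by
    apply Prod.ext
    · apply Subtype.ext
      rw [hR.red_fst u h1m, h1r]
      rfl
    · apply Subtype.ext
      rw [hR.red_snd u h2m, h2r]
      rfl
  obtain ⟨x, 𝓛, n₀, hx, hL⟩ := exists_lsys_pM hbase hA hR
  have hxT : Transcendental Qb ((x : R.O) : FB (p * M)) := by
    rw [hx]; exact DG_transcendental_x M p hpM
  obtain ⟨n, C, hgap⟩ := exists_hasGap_of_lsys (isFF_FB (p * M)) IsLocalRing.residue_surjective R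
    hp.pos hxT hL
  obtain ⟨π, hπ⟩ := hgap u hu hK.2 hpow
  have hval := gapw_val hA hR C u hu a₁ a₂ hn1 hn2 π hπ
  have hlv : A.valuation (lam : Qb) = A.valuation (π : Qb) := by
    have h3 : A.valuation (lam : Qb) ^ (p - 1) = A.valuation (π : Qb) ^ (p - 1) := by
      rw [hval, ← map_pow]
      have : (lam : Qb) ^ (p - 1) = -(p : Qb) := by
        have := congrArg (fun z : A => (z : Qb)) hlam
        simpa using this
      rw [this, Valuation.map_neg]
    exact (pow_left_inj₀ zero_le' zero_le' hp1).1 h3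
  obtain ⟨g, r, r₂, k₁, hg, hrep, hrL, hr₂L, hk⟩ :=
    hasGap_rep_lam2 R IsLocalRing.residue_surjective C u hu π hπ lam hlv
  have hg0 : ((g : R.O) : FB (p * M)) ≠ 0 := by
    intro h0
    have : g = 0 := Subtype.ext h0
    rw [this, map_zero] at hg
    exact zero_ne_one hg
  have hrepF : ((1 + R.const (lam ^ p) * r : R.O) : FB (p * M)) =
      ((g : R.O) : FB (p * M)) ^ p * h := by
    rw [← hrep]; rfl
  have hN1 : nrm (pi1 M p) ((1 + R.const (lam ^ p) * r : R.O) : FB (p * M)) =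
      (nrm (pi1 M p) ((g : R.O) : FB (p * M)) * a₁) ^ p := by
    rw [hrepF, map_mul, map_pow, hn1, mul_pow]
  obtain ⟨t₁, ht₁⟩ := toric_fst hA hR lam hlam r _ hN1
  obtain ⟨hwm, hwr⟩ := wq_mem hR r
  have hwrep : ((1 + R.const (lam ^ p) * ⟨_, hwm⟩ : R.O) : FB (p * M)) =
      wq M p hpM ((1 + R.const (lam ^ p) * r : R.O) : FB (p * M)) := by
    push_cast
    rw [map_add, map_one, map_mul, R.coe_const, AlgEquiv.commutes]
  have hN2 : nrm (pi1 M p) ((1 + R.const (lam ^ p) * ⟨_, hwm⟩ : R.O) : FB (p * M)) =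
      (nrm (pi1 M p) (wq M p hpM ((g : R.O) : FB (p * M))) * a₂) ^ p := by
    rw [hwrep, hrepF, map_mul, map_pow, map_mul, map_pow, hn2, mul_pow]
  obtain ⟨t₂, ht₂⟩ := toric_fst hA hR lam hlam ⟨_, hwm⟩ _ hN2
  rw [hwr] at ht₂
  refine ⟨n, g, r, r₂, k₁, t₁, t₂, hg0, hrepF.symm, ?_, Prod.ext ht₁ ht₂, ?_, hk⟩
  · rw [← hx]
    exact hrL
  · rw [← hx]
    exact hr₂L

end

end Fermat.Agent.S40Lib
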