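import Fermat.Agent.S40.GapwInertia
import Fermat.Agent.S40.GapwToric
import Fermat.Agent.S34.DegLe2
import Fermat.Agent.S36.Inst.ZT
import Fermat.Agent.S24.PlaceOfOrder

/-!
# S40 / S44, COV, block (FIX): inertia fixes the sheets of the cover (leaf)
-/

set_option autoImplicit false
set_option synthInstance.maxHeartbeats 400000
set_option linter.unusedSectionVars false
set_option maxHeartbeats 400000

open AlgebraicCurve IntermediateField ModularCurve
  Fermat.Agent.S24Lib Fermat.Agent.FFLib Fermat.Agent.S18Lib Fermat.Agent.S28Lib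
  Fermat.Agent.ESLib Fermat.Agent.S34Lib Fermat.Agent.S36Lib Fermat.Agent.S33Lib

namespace Fermat.Agent.S40Lib


section abstract

variable {K k F Φ : Type*} [Field K] [Field k] [Field F] [Algebra K F] [CommRing Φ] [Algebra k Φ]
  {A : ValuationSubring K} {resK : A →+* k}

/-- (FX3) `S40/Fix/RootL.lean` : `p`-th roots and Riemann-Roch spaces -/
theorem FX_root_L [IsAlgClosed K] (hF : IsFF K F) (x : F) {p : ℕ} (hp : 0 < p) (a b : ℕ) (G : F)
    (h : G ^ p ∈ riemannRochSpace (maE K x (p * a) (p * b))) :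
    G ∈ riemannRochSpace (maE K x a b) := by
  rw [mem_L_iff] at h ⊢
  intro v
  by_cases hG : G = 0
  · exact Or.inl hG
  right
  rcases h v with h0 | h0
  · exact absurd h0 (pow_ne_zero p hG)
  rw [maE_apply hF, ma_ord_pow] at h0
  rw [maE_apply hF]
  push_cast at h0
  have hp' : (0 : ℤ) < p := by exact_mod_cast hp
  have h1 : (p : ℤ) * (-((a : ℤ) * max (-v.ord x) 0 + b * max (v.ord x) 0)) ≤ p * v.ord G := by
    calc (p : ℤ) * (-((a : ℤ) * max (-v.ord x) 0 + b * max (v.ord x) 0))
        = -((p : ℤ) * a * max (-v.ord x) 0 + p * b * max (v.ord x) 0) := by ring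
      _ ≤ p * v.ord G := h0
  exact le_of_mul_le_mul_left h1 hp'

/-- (FX3') `S40/Fix/RootL.lean` : products -/
theorem FX_mul_mem [IsAlgClosed K] (hF : IsFF K F) (x : F) {a a' b b' : ℕ} {f g : F}
    (hf : f ∈ riemannRochSpace (maE K x a b)) (hg : g ∈ riemannRochSpace (maE K x a' b')) :
    f * g ∈ riemannRochSpace (maE K x (a + a') (b + b')) := by
  rw [mem_L_iff] at hf hg ⊢
  intro v
  refine D2.ge_mono v (le_of_eq ?_) (D2.ge_mul v (hf v) (hg v))
  rw [maE_apply hF, maE_apply hF, maE_apply hF]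
  push_cast
  ring

/-- (FX3'') `S40/Fix/RootL.lean` : a semilinear automorphism fixing `x` preserves the spaces -/
theorem FX_smul_mem [IsAlgClosed K] (hF : IsFF K F) (x : F) (τ : SemilinearAut K F)
    (hτx : τ • x = x) {a b : ℕ} {f : F} (hf : f ∈ riemannRochSpace (maE K x a b)) :
    τ • f ∈ riemannRochSpace (maE K x a b) :=
  xx_smul_mem_maE hF τ x hτx a b hf

end abstract

end Fermat.Agent.S40Lib
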