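import Fermat.Agent.S40.GapwInertia
import Fermat.Agent.S40.GapwToric
import Fermat.Agent.S34.DegLe2
import Fermat.Agent.S36.Inst.ZT
import Fermat.Agent.S24.PlaceOfOrder

/-!
# S40 / S44, COV, block (FIX): inertia fixes the sheets of the cover (leaf)
-/

set_option autoImplicit false
set_option synthInstance.maxHeartbeats 400000
set_option linter.unusedSectionVars false
set_option maxHeartbeats 400000

open AlgebraicCurve IntermediateField ModularCurve
  Fermat.Agent.S24Lib Fermat.Agent.FFLib Fermat.Agent.S18Lib Fermat.Agent.S28Lib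
  Fermat.Agent.ESLib Fermat.Agent.S34Lib Fermat.Agent.S36Lib Fermat.Agent.S33Lib

namespace Fermat.Agent.S40Lib


section abstract

variable {K k F Φ : Type*} [Field K] [Field k] [Field F] [Algebra K F] [CommRing Φ] [Algebra k Φ]
  {A : ValuationSubring K} {resK : A →+* k}

/-- (FX2) `S40/Fix/RootMem.lean` : a `p`-th root of an integral function with reduction `1` -/
theorem FX_root_mem [Nontrivial Φ] [IsReduced Φ] {p : ℕ} [Fact p.Prime] [CharP k p]
    (R : RedG A resK F Φ) (G : F) (h : G ^ p ∈ R.O) (hr : R.red ⟨_, h⟩ = 1) :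
    ∃ hG : G ∈ R.O, R.red ⟨G, hG⟩ = 1 := by
  have hp0 : p ≠ 0 := (Fact.out : p.Prime).ne_zero
  have hG0 : G ≠ 0 := by
    rintro rfl
    have h0 : (⟨(0 : F) ^ p, h⟩ : R.O) = 0 := Subtype.ext (zero_pow hp0)
    rw [h0, map_zero] at hr
    exact zero_ne_one hr
  obtain ⟨c, hc0, y, hy, hGy⟩ := R.exists_scale G hG0
  have hcA : c ∈ A := by
    by_contra hc
    have hc' : c⁻¹ ∈ A := (A.mem_or_inv_mem c).resolve_left hc
    have hnu : ¬ IsUnit (⟨c⁻¹, hc'⟩ : A) := by
      intro hu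
      obtain ⟨u, hu⟩ := hu
      apply hc
      have h1 : ((u⁻¹ : Aˣ) : A) * ⟨c⁻¹, hc'⟩ = 1 := by rw [← hu]; exact u.inv_mul
      have h2 : (((u⁻¹ : Aˣ) : A) : K) * c⁻¹ = 1 := congrArg (fun z : A => (z : K)) h1
      have h3 : (((u⁻¹ : Aˣ) : A) : K) = c := by
        field_simp at h2
        exact h2
      exact h3 ▸ ((u⁻¹ : Aˣ) : A).2
    have hres0 : resK ⟨c⁻¹, hc'⟩ = 0 := (xs_ker R _).2 hnu
    have h4 : y ^ p = R.const ⟨c⁻¹, hc'⟩ ^ p * ⟨_, h⟩ := by
      apply Subtype.ext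
      show ((y : R.O) : F) ^ p = (algebraMap K F c⁻¹) ^ p * G ^ p
      rw [hGy, mul_pow, ← mul_assoc, ← mul_pow, ← map_mul, inv_mul_cancel₀ hc0, map_one, one_pow,
        one_mul]
    have h5 := congrArg R.red h4
    rw [map_pow, map_mul, map_pow, R.red_const, hres0, map_zero, zero_pow hp0, zero_mul] at h5
    exact hy (pow_eq_zero_iff hp0 |>.1 h5)
  have hG : G ∈ R.O := by
    rw [hGy]
    exact R.O.mul_mem ((R.algebraMap_mem_iff c).2 hcA) y.2
  refine ⟨hG, ?_⟩
  haveI : CharP Φ p := xs_charP (k := k) (Φ := Φ) p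
  apply xs_eq_one_of_pow p
  rw [← map_pow, ← hr]
  rfl

end abstract

end Fermat.Agent.S40Lib
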