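import Fermat.Agent.S40.GapwInertia
import Fermat.Agent.S40.GapwToric
import Fermat.Agent.S34.DegLe2
import Fermat.Agent.S36.Inst.ZT
import Fermat.Agent.S24.PlaceOfOrder
import Fermat.Agent.S40.Fix.RootMem
import Fermat.Agent.S40.Fix.RootL

/-!
# S40 / S44, COV, block (FIX): inertia fixes the sheets of the cover (leaf)
-/

set_option autoImplicit false
set_option synthInstance.maxHeartbeats 400000
set_option linter.unusedSectionVars false
set_option maxHeartbeats 400000

open AlgebraicCurve IntermediateField ModularCurve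
  Fermat.Agent.S24Lib Fermat.Agent.FFLib Fermat.Agent.S18Lib Fermat.Agent.S28Lib
  Fermat.Agent.ESLib Fermat.Agent.S34Lib Fermat.Agent.S36Lib Fermat.Agent.S33Lib

namespace Fermat.Agent.S40Lib


section abstract

variable {K k F Φ : Type*} [Field K] [Field k] [Field F] [Algebra K F] [CommRing Φ] [Algebra k Φ]
  {A : ValuationSubring K} {resK : A →+* k}

theorem FX4_pow_mem [IsAlgClosed K] (hF : IsFF K F) (x : F) {a b : ℕ} {f : F}
    (hf : f ∈ riemannRochSpace (maE K x a b)) (N : ℕ) :
    f ^ N ∈ riemannRochSpace (maE K x (a * N) (b * N)) := by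
  induction N with
  | zero => rw [pow_zero]; exact ma_one_mem hF _ _ _
  | succ N ih =>
    rw [pow_succ, Nat.mul_succ, Nat.mul_succ]
    exact FX_mul_mem hF x ih hf

section main

variable [Nontrivial Φ] [IsReduced Φ] [IsAlgClosed K] [IsAlgClosed k] {p : ℕ} [Fact p.Prime]
  [CharP k p] (R : RedG A resK F Φ)

/-- (FX4) `S40/Fix/Twist.lean` : the normalised root of `τ y / y ^ j`, `y = 1 + lam ^ p r`,
in any chart -/
theorem FX_twist (hF : IsFF K F) (x : R.O)
    (τ : SemilinearAut K F) (hτx : τ • ((x : R.O) : F) = x)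
    (hτO : ∀ y : R.O, ∃ hy : τ • ((y : R.O) : F) ∈ R.O, R.red ⟨_, hy⟩ = R.red y)
    (lam θ : A) (hlam : lam ^ (p - 1) = -(p : A)) (j : ℕ)
    (hθ : SemilinearAut.baseAut τ (lam : K) = θ * lam) (hθj : resK θ = (j : k))
    (a b : ℕ) (r : R.O)
    (hr : ((r : R.O) : F) ∈ riemannRochSpace (maE K ((x : R.O) : F) (p * a) (p * b)))
    (G : F)
    (hG : G ^ p = (τ • ((1 + R.const (lam ^ p) * r : R.O) : F)) *
      ((1 + R.const (lam ^ p) * r : R.O) : F) ^ (j * (p - 1))) :
    ∃ g₁ : R.O, G = ((1 + R.const lam * g₁ : R.O) : F) ∧ R.red g₁ ^ p = R.red g₁ ∧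
      ((g₁ : R.O) : F) ∈ riemannRochSpace
        (maE K ((x : R.O) : F) (a * (1 + j * (p - 1))) (b * (1 + j * (p - 1)))) := by
  have hp : p.Prime := Fact.out
  have hp1 : p - 1 ≠ 0 := by have := hp.two_le; omega
  have hpp : 1 + (p - 1) = p := by have := hp.two_le; omega
  by_cases hlam0 : lam = 0
  · -- degenerate case: characteristic `p`
    have hpA : (p : A) = 0 := by
      rw [hlam0, zero_pow hp1] at hlam
      exact neg_eq_zero.1 hlam.symm
    have hpF : (p : F) = 0 := by
      have h1 : ((p : A) : K) = 0 := by rw [hpA]; rfl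
      have h2 : (p : K) = 0 := by simpa using h1
      have h3 := congrArg (algebraMap K F) h2
      simpa using h3
    haveI : CharP F p := (CharP.charP_iff_prime_eq_zero hp).2 hpF
    have hc0 : R.const (lam ^ p) = 0 := by
      apply Subtype.ext
      show algebraMap K F ((lam ^ p : A) : K) = 0
      rw [hlam0, zero_pow hp.ne_zero]
      simp
    rw [hc0, zero_mul, add_zero] at hG
    have hG1 : G ^ p = 1 := by
      rw [hG]
      show τ • (1 : F) * (1 : F) ^ (j * (p - 1)) = 1
      rw [smul_one, one_pow, one_mul]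
    have hG2 : G = 1 := by
      have h1 : (G - 1) ^ p = 0 := by rw [sub_pow_char, hG1, one_pow, sub_self]
      exact sub_eq_zero.1 ((pow_eq_zero_iff hp.ne_zero).1 h1)
    refine ⟨0, ?_, ?_, ?_⟩
    · rw [mul_zero, add_zero, hG2]; rfl
    · rw [map_zero, zero_pow hp.ne_zero]
    · exact Submodule.zero_mem _
  have hreslam : resK lam = 0 := by
    have h1 := congrArg resK hlam
    rw [map_pow, map_neg, map_natCast, CharP.cast_eq_zero, neg_zero] at h1
    exact (pow_eq_zero_iff hp1).1 h1
  set P : R.O := R.const (lam ^ p) with hP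
  have hredP : R.red P = 0 := by
    rw [hP, R.red_const, map_pow, hreslam, zero_pow hp.ne_zero, map_zero]
  obtain ⟨hr', hr'r⟩ := hτO r
  set r' : R.O := ⟨_, hr'⟩ with hr'def
  set N : ℕ := j * (p - 1) with hN
  obtain ⟨Q, hQ⟩ := GW6_pow P r N
  set α : R.O := R.const (θ ^ p) * r' with hα
  set β : R.O := (N : R.O) * r + P * Q with hβ
  set ρ : R.O := α + β + P * (α * β) with hρ
  have e1 : τ • ((1 + P * r : R.O) : F) = ((1 + P * α : R.O) : F) := by
    show τ • ((1 : F) + algebraMap K F ((lam ^ p : A) : K) * ((r : R.O) : F)) =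
      1 + algebraMap K F ((lam ^ p : A) : K) *
        (algebraMap K F ((θ ^ p : A) : K) * (τ • ((r : R.O) : F)))
    rw [smul_add, smul_one, smul_mul', SemilinearAut.smul_algebraMap]
    have : SemilinearAut.baseAut τ ((lam ^ p : A) : K) = ((lam ^ p : A) : K) * ((θ ^ p : A) : K) := by
      show SemilinearAut.baseAut τ ((lam : K) ^ p) = (lam : K) ^ p * (θ : K) ^ p
      rw [map_pow, hθ, mul_pow, mul_comm]
    rw [this, map_mul, mul_assoc]
  have e2 : G ^ p = ((1 + P * ρ : R.O) : F) := by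
    rw [hG, e1]
    show ((((1 + P * α) * (1 + P * r) ^ N : R.O)) : F) = _
    rw [hQ, hρ]
    congr 1
    ring
  have hredρ : R.red ρ = 0 := by
    have hjp : (j : k) ^ p = j := by
      have := map_natCast (frobenius k p) j
      rwa [frobenius_def] at this
    rw [hρ, hα, hβ]
    simp only [map_add, map_mul, hredP, zero_mul, add_zero, R.red_const, map_pow, hθj, hjp, hr'r,
      map_natCast]
    rw [← add_mul, ← Nat.cast_add]
    have hjN : j + N = p * j := by
      calc j + N = j * (1 + (p - 1)) := by rw [hN]; ring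
        _ = p * j := by rw [hpp, mul_comm]
    haveI : CharP Φ p := xs_charP (k := k) (Φ := Φ) p
    rw [hjN, Nat.cast_mul, CharP.cast_eq_zero, zero_mul, zero_mul]
  have hGpO : G ^ p ∈ R.O := by rw [e2]; exact (1 + P * ρ : R.O).2
  have hGpr : R.red ⟨_, hGpO⟩ = 1 := by
    have : (⟨_, hGpO⟩ : R.O) = 1 + P * ρ := Subtype.ext e2
    rw [this, map_add, map_one, map_mul, hredP, zero_mul, add_zero]
  obtain ⟨hGO, hGr⟩ := FX_root_mem R G hGpO hGpr
  obtain ⟨g₁, hg₁, hg₁r⟩ := pow_boundary R ⟨G, hGO⟩ ρ hGr lam (-1) hlam0 hreslam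
    (by rw [hlam]; ring) (Subtype.ext e2)
  have hGg : G = ((1 + R.const lam * g₁ : R.O) : F) := congrArg (fun z : R.O => (z : F)) hg₁
  refine ⟨g₁, hGg, ?_, ?_⟩
  · rw [hredρ, map_neg, map_one, map_neg, map_one, neg_one_mul] at hg₁r
    exact (sub_eq_zero.1 (by rw [sub_eq_add_neg]; exact hg₁r.symm))
  · have hyL : ((1 + P * r : R.O) : F) ∈ riemannRochSpace (maE K ((x : R.O) : F) (p * a) (p * b)) := by
      show (1 : F) + algebraMap K F ((lam ^ p : A) : K) * ((r : R.O) : F) ∈ _
      rw [← Algebra.smul_def]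
      exact add_mem (ma_one_mem hF _ _ _) (Submodule.smul_mem _ _ hr)
    have h1 := FX_mul_mem hF _ (FX_smul_mem hF _ τ hτx hyL) (FX4_pow_mem hF _ hyL N)
    rw [← hG] at h1
    have ea : p * a + p * a * N = p * (a * (1 + N)) := by ring
    have eb : p * b + p * b * N = p * (b * (1 + N)) := by ring
    rw [ea, eb] at h1
    have hGL := FX_root_L hF _ hp.pos _ _ G h1
    have hlamK : (lam : K) ≠ 0 := fun h0 => hlam0 (Subtype.ext h0)
    have e3 : ((g₁ : R.O) : F) = (lam : K)⁻¹ • (G - 1) := by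
      rw [hGg]
      show ((g₁ : R.O) : F) = (lam : K)⁻¹ • ((1 + algebraMap K F (lam : K) * ((g₁ : R.O) : F)) - 1)
      rw [add_sub_cancel_left, Algebra.smul_def, ← mul_assoc, ← map_mul, inv_mul_cancel₀ hlamK,
        map_one, one_mul]
    rw [e3]
    exact Submodule.smul_mem _ _ (sub_mem hGL (ma_one_mem hF _ _ _))

end main

end abstract

end Fermat.Agent.S40Lib
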