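import Fermat.Agent.S40.GapwInertia
import Fermat.Agent.S40.Fix.Twist
import Fermat.Agent.S40.Fix.Ratio
import Fermat.Agent.S40.Fix.Glued
import Fermat.Agent.S40.Fix.Cusp
import Fermat.Agent.S40.Fix.Toric2

/-!
# S40 / S44, COV, block (FIX): inertia fixes the sheets of the cover (FX13, assembly)
-/

set_option autoImplicit false
set_option synthInstance.maxHeartbeats 400000
set_option linter.unusedSectionVars false
set_option maxHeartbeats 400000

open AlgebraicCurve IntermediateField ModularCurve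
  Fermat.Agent.S24Lib Fermat.Agent.FFLib Fermat.Agent.S18Lib Fermat.Agent.S28Lib
  Fermat.Agent.ESLib Fermat.Agent.S34Lib Fermat.Agent.S36Lib Fermat.Agent.S33Lib

namespace Fermat.Agent.S40Lib

noncomputable section

/-- a `p`-th root of unity in the Laurent series is a constant -/
theorem FXM_root_one {p : ℕ} (hp : 0 < p) (z : LaurentSeries Qb) (hz : z ^ p = 1) :
    ∃ ξ : Qb, ξ ^ p = 1 ∧ z = algebraMap Qb (LaurentSeries Qb) ξ := by
  have hint : IsIntegral Qb z := by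
    refine ⟨Polynomial.X ^ p - 1, Polynomial.monic_X_pow_sub_C (1 : Qb) hp.ne', ?_⟩
    simp [hz]
  have h1 := IsAlgClosed.degree_eq_one_of_irreducible Qb (minpoly.irreducible hint)
  obtain ⟨ξ, hξ⟩ := minpoly.mem_range_of_degree_eq_one Qb z h1
  refine ⟨ξ, ?_, hξ.symm⟩
  apply (algebraMap Qb (LaurentSeries Qb)).injective
  rw [map_pow, hξ, hz, map_one]

/-- two series with the same `p`-th power differ by a constant root of unity -/
theorem FXM_root_eq {p : ℕ} (hp : 0 < p) (a b : LaurentSeries Qb) (hb : b ≠ 0)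
    (h : a ^ p = b ^ p) :
    ∃ ξ : Qb, ξ ^ p = 1 ∧ a = algebraMap Qb (LaurentSeries Qb) ξ * b := by
  obtain ⟨ξ, h1, h2⟩ := FXM_root_one hp (a / b) (by rw [div_pow, h, div_self (pow_ne_zero _ hb)])
  exact ⟨ξ, h1, by rw [← h2, div_mul_cancel₀ _ hb]⟩

end

end Fermat.Agent.S40Lib

namespace Fermat.Agent.S40Lib

noncomputable section

variable (M p : ℕ) [NeZero M] [NeZero p] [hpF : Fact p.Prime] (hpM : ¬ p ∣ M)
variable (A : ValuationSubring Qb)

set_option maxHeartbeats 4000000 in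
/-- (FX13) **(FIX)** -/
theorem fix_main (hbase : 2 ∣ M ∨ 3 ∣ M) (hA : A.LiesOverPrime p)
    (R : RedG A (IsLocalRing.residue A) (FB (p * M)) (FT A M × FT A M))
    (hR : IsQRed2 M p hpM A R) (lam : A) (hlam : lam ^ (p - 1) = -(p : A))
    (h : FB (p * M)) (hK : IsKum (p * M) p h) (h1 : GOne A (h : LaurentSeries Qb))
    (h2 : GOne A ((wq M p hpM h : FB (p * M)) : LaurentSeries Qb))
    (a₁ a₂ : FB M) (hn1 : nrm (pi1 M p) h = a₁ ^ p) (hn2 : nrm (pi1 M p) (wq M p hpM h) = a₂ ^ p) :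
    ∃ (n : ℕ) (g : FB (p * M)) (r : R.O) (t₁ t₂ : FT A M), g ≠ 0 ∧
      g ^ p * h = ((1 + R.const (lam ^ p) * r : R.O) : FB (p * M)) ∧
      ((r : R.O) : FB (p * M)) ∈ riemannRochSpace (maE Qb (jN M p * jQ M p) (p * n) 0) ∧
      R.red r = (t₁ ^ p - t₁, t₂ ^ p - t₂) ∧
      ∀ η : LaurentSeries Qb,
        η ^ p = (((1 + R.const (lam ^ p) * r : R.O) : FB (p * M)) : LaurentSeries Qb) →
        ∀ σ ∈ A.inertiaSubgroupIn ℚ, ∀ ζ : Qb, ζ ^ p = 1 → ζ ≠ 1 → ∀ j : ℕ, σ ζ = ζ ^ j →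
          ∃ G : R.O, R.red G = 0 ∧ coeffMap ((σ : GQ) : Qb →+* Qb) η =
            η ^ j * (((1 + R.const lam * G : R.O) : FB (p * M)) : LaurentSeries Qb) := by
  have := isAlgClosed_kk A
  have : CharP (kk A) p := charP_kk hpF.out hA
  have hp := hpF.out
  have hp1 : p - 1 ≠ 0 := by have := hp.two_le; omega
  obtain ⟨n, g, r, r₂, k₁, t₁, t₂, hg0, hrep, hrL, hred, hr₂L, hk⟩ :=
    exists_toricForm2 M p hpM A hbase hA R hR lam hlam h hK h1 h2 a₁ a₂ hn1 hn2
  refine ⟨n, g, r, t₁, t₂, hg0, hrep, hrL, hred, ?_⟩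
  intro η hη σ hσ ζ hζ hζ1 j hj
  -- constants
  have hpA : (p : A) ≠ 0 := by
    intro h0
    have : ((p : A) : Qb) = 0 := by rw [h0]; rfl
    rw [show ((p : A) : Qb) = (p : Qb) from by push_cast; rfl] at this
    exact hp.ne_zero (by exact_mod_cast this)
  have hl0 : lam ≠ 0 := by
    intro h0
    rw [h0, zero_pow hp1] at hlam
    exact hpA (neg_eq_zero.1 hlam.symm)
  have hlr : IsLocalRing.residue A lam = 0 := by
    have h1 : IsLocalRing.residue A lam ^ (p - 1) = 0 := by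
      rw [← map_pow, hlam, map_neg, map_natCast, CharP.cast_eq_zero, neg_zero]
    exact pow_eq_zero_iff hp1 |>.1 h1
  have hval : A.valuation (lam : Qb) ^ (p - 1) = A.valuation (p : Qb) := by
    rw [← map_pow]
    have : (lam : Qb) ^ (p - 1) = -(p : Qb) := by
      have := congrArg (fun z : A => (z : Qb)) hlam
      simpa using this
    rw [this, Valuation.map_neg]
  obtain ⟨θ, hθ, hθj⟩ := tame_theta p hp A hA σ hσ ζ hζ hζ1 j hj lam hval
  obtain ⟨x, hx, hxr⟩ := exists_xO hR hA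
  obtain ⟨hx₁, hx₂, S, n₀, hS, hW⟩ := UK_exists_nodes M p hpM hbase A hA R hR x hx hxr
  have hτx : gal (p * M) σ ((x : R.O) : FB (p * M)) = x := by
    rw [hx, map_mul]
    congr 1
    · exact UK_gal_jBarD (p * M) 1 (one_dvd _) σ
    · exact UK_gal_jBarD (p * M) p (dvd_mul_right p M) σ
  have hτO := inertia_mem hR σ hσ
  obtain ⟨G₀, hG₀⟩ := toric_inertia M p hpM A hbase hA h hK h1 h2 a₁ a₂ hn1 hn2 σ hσ ζ hζ hζ1 j hj
  -- Step A : `σ η = η ^ j * W`, `W ∈ F`
  set Y₁ : R.O := 1 + R.const (lam ^ p) * r with hY₁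
  have hY₁red : R.red Y₁ = 1 := by
    rw [hY₁, map_add, map_one, map_mul, RedG.red_const, map_pow, hlr, zero_pow hp.ne_zero,
      map_zero, zero_mul, add_zero]
  have hY₁0 : ((Y₁ : R.O) : FB (p * M)) ≠ 0 := by
    intro h0
    have : Y₁ = 0 := Subtype.ext h0
    rw [this, map_zero] at hY₁red
    exact zero_ne_one hY₁red
  have hη0 : η ≠ 0 := by
    rintro rfl
    rw [zero_pow hp.ne_zero] at hη
    apply hY₁0
    apply Subtype.ext
    exact hη.symm
  set W₀ : FB (p * M) := gal (p * M) σ g * G₀ / g ^ j with hW₀def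
  have hW₀ : gal (p * M) σ ((Y₁ : R.O) : FB (p * M)) = W₀ ^ p * ((Y₁ : R.O) : FB (p * M)) ^ j := by
    rw [← hrep, map_mul, map_pow, hG₀, hW₀def, div_pow, mul_pow, mul_pow, ← pow_mul, ← pow_mul,
      mul_comm j p]
    have : (g ^ (p * j)) ≠ 0 := pow_ne_zero _ hg0
    field_simp
  have hW₀0 : W₀ ≠ 0 := by
    intro h0
    rw [h0, zero_pow hp.ne_zero, zero_mul] at hW₀
    exact hY₁0 ((map_eq_zero _).1 hW₀)
  have hA1 : (coeffMap ((σ : GQ) : Qb →+* Qb) η) ^ p = ((W₀ : LaurentSeries Qb) * η ^ j) ^ p := by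
    rw [← map_pow, hη, ← coe_gal, hW₀, mul_pow, ← pow_mul, mul_comm j p, pow_mul, hη]
    rfl
  obtain ⟨ξ, hξ, hση⟩ := FXM_root_eq hp.pos _ _
    (mul_ne_zero (fun h0 => hW₀0 (Subtype.ext h0)) (pow_ne_zero _ hη0)) hA1
  set W : FB (p * M) := algebraMap Qb (FB (p * M)) ξ * W₀ with hWdef
  have hση' : coeffMap ((σ : GQ) : Qb →+* Qb) η = η ^ j * (W : LaurentSeries Qb) := by
    rw [hση, hWdef]
    show _ = η ^ j * (algebraMap Qb (LaurentSeries Qb) ξ * (W₀ : LaurentSeries Qb))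
    ring
  have hWp : W ^ p * ((Y₁ : R.O) : FB (p * M)) ^ j = gal (p * M) σ ((Y₁ : R.O) : FB (p * M)) := by
    rw [hW₀, hWdef, mul_pow, ← map_pow, hξ, map_one, one_mul]
  -- Step B : first chart
  have hjp : j * p = j + j * (p - 1) := by
    obtain ⟨q, rfl⟩ : ∃ q, p = q + 1 := ⟨p - 1, by omega⟩
    simp only [Nat.add_sub_cancel]
    ring
  set G₁ : FB (p * M) := W * ((Y₁ : R.O) : FB (p * M)) ^ j with hG₁def
  have hG₁p : G₁ ^ p = gal (p * M) σ ((Y₁ : R.O) : FB (p * M)) *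
      ((Y₁ : R.O) : FB (p * M)) ^ (j * (p - 1)) := by
    rw [← hWp, hG₁def, mul_pow, ← pow_mul, hjp, pow_add]
    ring
  obtain ⟨g₁, hg₁, hg₁p, hg₁L⟩ := FX_twist R (isFF_FB (p * M)) x
    (arithmeticGalois (modularFunctionFieldFull (p * M)) σ) hτx hτO lam θ hlam j hθ hθj n 0 r
    (by rw [hx, Nat.mul_zero]; exact hrL) G₁ hG₁p
  rw [Nat.zero_mul] at hg₁L
  obtain ⟨c, hc⟩ := FX_glued (isFF_FB (p * M)) (isFF_FT A M) (p := p)
    IsLocalRing.residue_surjective R x S n₀ hS hW g₁ _ hg₁L hg₁p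
  -- Step C : second chart
  set k : R.O := 1 + R.const lam * k₁ with hkdef
  set Y₂ : R.O := 1 + R.const (lam ^ p) * r₂ with hY₂
  obtain ⟨c', hc'0, hc'⟩ := FX_ratio R (arithmeticGalois (modularFunctionFieldFull (p * M)) σ)
    hτO lam θ hlr j hθ hθj k₁
  have hc'' : gal (p * M) σ ((k : R.O) : FB (p * M)) =
      ((k : R.O) : FB (p * M)) ^ j * ((1 + R.const lam * c' : R.O) : FB (p * M)) := hc'
  set η₂ : LaurentSeries Qb := η * (((k : R.O) : FB (p * M)) : LaurentSeries Qb) with hη₂def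
  have hη₂ : η₂ ^ p = (((Y₂ : R.O) : FB (p * M)) : LaurentSeries Qb) := by
    rw [hη₂def, mul_pow, hη, ← hk]
    rfl
  set G₂O : R.O := (1 + R.const lam * g₁) * k ^ (j * p) * (1 + R.const lam * c') with hG₂O
  have hG₂L : coeffMap ((σ : GQ) : Qb →+* Qb) η₂ * η₂ ^ (j * (p - 1)) =
      (((G₂O : R.O) : FB (p * M)) : LaurentSeries Qb) := by
    have e1 : (((G₂O : R.O) : FB (p * M)) : LaurentSeries Qb) =
        ((G₁ : FB (p * M)) : LaurentSeries Qb) *
          (((k : R.O) : FB (p * M)) : LaurentSeries Qb) ^ (j * p) *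
          (((1 + R.const lam * c' : R.O) : FB (p * M)) : LaurentSeries Qb) := by
      rw [hg₁]
      rfl
    have e2 : ((G₁ : FB (p * M)) : LaurentSeries Qb) = (W : LaurentSeries Qb) * η ^ (j * p) := by
      rw [mul_comm j p, pow_mul, hη]
      rfl
    have e3 : coeffMap ((σ : GQ) : Qb →+* Qb) (((k : R.O) : FB (p * M)) : LaurentSeries Qb) =
        (((k : R.O) : FB (p * M)) : LaurentSeries Qb) ^ j *
          (((1 + R.const lam * c' : R.O) : FB (p * M)) : LaurentSeries Qb) := by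
      rw [← coe_gal, hc'']
      rfl
    rw [e1, e2, hη₂def, map_mul, hση', e3, mul_pow, hjp, pow_add, pow_add]
    ring
  have hG₂p : ((G₂O : R.O) : FB (p * M)) ^ p = gal (p * M) σ ((Y₂ : R.O) : FB (p * M)) *
      ((Y₂ : R.O) : FB (p * M)) ^ (j * (p - 1)) := by
    apply Subtype.ext
    show (((G₂O : R.O) : FB (p * M)) : LaurentSeries Qb) ^ p =
      coeffMap ((σ : GQ) : Qb →+* Qb) (((Y₂ : R.O) : FB (p * M)) : LaurentSeries Qb) *
        (((Y₂ : R.O) : FB (p * M)) : LaurentSeries Qb) ^ (j * (p - 1))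
    rw [← hG₂L, ← hη₂, mul_pow, map_pow, ← pow_mul, ← pow_mul, mul_comm p]
  obtain ⟨g₂, hg₂, hg₂p, hg₂L⟩ := FX_twist R (isFF_FB (p * M)) x
    (arithmeticGalois (modularFunctionFieldFull (p * M)) σ) hτx hτO lam θ hlam j hθ hθj 0 n r₂
    (by rw [hx, Nat.mul_zero]; exact hr₂L) _ hG₂p
  rw [Nat.zero_mul, hx] at hg₂L
  have hcharΦ : CharP (FT A M × FT A M) p := xs_charP (k := kk A) p
  have hL0 : R.const lam ≠ 0 := by
    intro h0
    apply hl0
    have h1 := congrArg (fun z : R.O => (z : FB (p * M))) h0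
    simp only [RedG.coe_const, ZeroMemClass.coe_zero, map_eq_zero] at h1
    exact Subtype.ext h1
  have hLr : R.red (R.const lam) = 0 := by rw [RedG.red_const, hlr, map_zero]
  have hred₂ : R.red g₂ = R.red g₁ := by
    obtain ⟨Q, hQ⟩ := GW6_pow (R.const lam) k₁ (j * p)
    have e1 : G₂O = 1 + R.const lam * g₂ := Subtype.ext hg₂
    have e2 : R.const lam * g₂ = R.const lam * (g₁ + (((j * p : ℕ) : R.O) * k₁ + R.const lam * Q)
        + c' + R.const lam * (g₁ * (((j * p : ℕ) : R.O) * k₁ + R.const lam * Q) + g₁ * c' +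
          (((j * p : ℕ) : R.O) * k₁ + R.const lam * Q) * c' +
          R.const lam * (g₁ * (((j * p : ℕ) : R.O) * k₁ + R.const lam * Q) * c'))) := by
      have e3 : R.const lam * g₂ = G₂O - 1 := by rw [e1]; ring
      rw [e3, hG₂O, hkdef, hQ]
      ring
    have e4 := mul_left_cancel₀ hL0 e2
    rw [e4]
    simp only [map_add, map_mul, hLr, hc'0, map_natCast, Nat.cast_mul, CharP.cast_eq_zero,
      zero_mul, mul_zero, add_zero]
  have hc0 : IsLocalRing.residue A c = 0 :=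
    FX_cusp hA hR σ hσ lam θ hlam j hθ hθj (p * n) _ r₂ g₂ hr₂L hg₂L η₂ hη₂
      (by rw [hG₂L, hg₂]) c (by rw [hred₂, hc])
  have hg₁0 : R.red g₁ = 0 := by rw [hc, hc0, map_zero]
  -- Step D
  obtain ⟨D, hD⟩ := GW6_pow (R.const (lam ^ p)) r j
  have hYu : IsUnit (Y₁ ^ j) := (R.isUnit_of_red Y₁ (by rw [hY₁red]; exact isUnit_one)).pow j
  obtain ⟨u, hu⟩ := hYu.exists_left_inv
  set D' : R.O := (j : R.O) * r + R.const (lam ^ p) * D with hD'
  refine ⟨(g₁ - R.const (lam ^ (p - 1)) * D') * u, ?_, ?_⟩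
  · rw [map_mul, map_sub, hg₁0, map_mul, RedG.red_const, map_pow, hlr, zero_pow hp1, map_zero,
      zero_mul, sub_zero, zero_mul]
  · rw [hση']
    congr 1
    have e5 : R.const (lam ^ p) = R.const lam * R.const (lam ^ (p - 1)) := by
      rw [xs_const, xs_const, xs_const, ← map_mul, ← pow_succ', Nat.sub_add_cancel hp.one_le]
    have e6 : (1 + R.const lam * ((g₁ - R.const (lam ^ (p - 1)) * D') * u)) * Y₁ ^ j =
        1 + R.const lam * g₁ := by
      have : (1 + R.const lam * ((g₁ - R.const (lam ^ (p - 1)) * D') * u)) * Y₁ ^ j =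
          Y₁ ^ j + R.const lam * (g₁ - R.const (lam ^ (p - 1)) * D') * (u * Y₁ ^ j) := by ring
      rw [this, hu, hY₁, hD, e5]
      ring
    have e7 := congrArg (fun z : R.O => (z : FB (p * M))) e6
    have e8 : ((1 + R.const lam * ((g₁ - R.const (lam ^ (p - 1)) * D') * u) : R.O) : FB (p * M)) *
        ((Y₁ : R.O) : FB (p * M)) ^ j = W * ((Y₁ : R.O) : FB (p * M)) ^ j := by
      rw [← hG₁def, hg₁]
      exact e7
    have e9 := mul_right_cancel₀ (pow_ne_zero j hY₁0) e8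
    rw [e9]

end

end Fermat.Agent.S40Lib
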