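import Fermat.Agent.S40.GapwInertia
import Fermat.Agent.S40.GapwToric
import Fermat.Agent.S34.DegLe2
import Fermat.Agent.S36.Inst.ZT
import Fermat.Agent.S24.PlaceOfOrder

/-!
# S40 / S44, COV, block (FIX), leaf (FX9): the place of the cusp `∞`
-/

set_option autoImplicit false
set_option synthInstance.maxHeartbeats 400000
set_option linter.unusedSectionVars false
set_option maxHeartbeats 400000

open AlgebraicCurve IntermediateField ModularCurve
  Fermat.Agent.S24Lib Fermat.Agent.FFLib Fermat.Agent.S18Lib Fermat.Agent.S28Lib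
  Fermat.Agent.ESLib Fermat.Agent.S34Lib Fermat.Agent.S36Lib Fermat.Agent.S33Lib

namespace Fermat.Agent.S40Lib

noncomputable section

/-- (FX9) `S40/Fix/CuspPlace.lean` : the place of the cusp `∞` -/
theorem FX_exists_cusp (N : ℕ) [NeZero N] :
    ∃ (v : Place Qb (FB N)) (m : ℕ), 0 < m ∧
      ∀ f : FB N, f ≠ 0 → (f : LaurentSeries Qb).order = m * v.ord f := by
  have hne : ∀ f : FB N, f ≠ 0 → (f : LaurentSeries Qb) ≠ 0 := fun f hf h => hf (Subtype.ext h)
  refine exists_place_of_order (K := Qb) (fun f : FB N => (f : LaurentSeries Qb).order) ?_ ?_ ?_ ?_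
  · intro f g hf hg
    exact HahnSeries.order_mul (hne f hf) (hne g hg)
  · intro f g _ _ hfg
    exact HahnSeries.min_order_le_order_add (hne _ hfg)
  · intro a _
    change (algebraMap Qb (LaurentSeries Qb) a).order = 0
    rw [algebraMap_eq_C]
    exact HahnSeries.order_C
  · refine ⟨jBar N, ?_, ?_⟩
    · intro h
      have h1 := congrArg (fun f : FB N => (f : LaurentSeries Qb).order) h
      simp only [ff_coe_jBar, order_jqModC] at h1
      simp at h1
    · change ((jBar N : FB N) : LaurentSeries Qb).order ≠ 0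
      rw [ff_coe_jBar, order_jqModC]
      norm_num

end

end Fermat.Agent.S40Lib
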