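import Fermat.Agent.S40.Fix.NoZero
import Fermat.Agent.S40.Fix.CuspPlace

/-!
# S40 / S44, COV, block (FIX), leaf (FX10): evaluation at the cusp
-/

set_option autoImplicit false
set_option synthInstance.maxHeartbeats 400000
set_option linter.unusedSectionVars false
set_option maxHeartbeats 400000

open AlgebraicCurve IntermediateField ModularCurve
  Fermat.Agent.S24Lib Fermat.Agent.FFLib Fermat.Agent.S18Lib Fermat.Agent.S28Lib
  Fermat.Agent.ESLib Fermat.Agent.S34Lib Fermat.Agent.S36Lib Fermat.Agent.S33Lib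

namespace Fermat.Agent.S40Lib

noncomputable section

theorem FX_exists_powerSeries {κ : Type*} [Field κ] (f : LaurentSeries κ) (h : 0 ≤ f.order) :
    ∃ P : PowerSeries κ, f = (P : LaurentSeries κ) ∧ PowerSeries.constantCoeff P = f.coeff 0 := by
  refine ⟨PowerSeries.mk fun n => f.coeff n, ?_, ?_⟩
  · ext n
    rw [PowerSeries.coeff_coe]
    split_ifs with hn
    · exact HahnSeries.coeff_eq_zero_of_lt_order (lt_of_lt_of_le hn h)
    · rw [PowerSeries.coeff_mk]
      congr 1
      omega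
  · rw [← PowerSeries.coeff_zero_eq_constantCoeff_apply, PowerSeries.coeff_mk]
    rfl

theorem FX_order_x_neg (M p : ℕ) [NeZero M] [NeZero p] :
    ((jN M p * jQ M p : FB (p * M)) : LaurentSeries Qb).order < 0 := by
  have h1 : ((jN M p : FB (p * M)) : LaurentSeries Qb).order = -1 := by
    change ((jBar (p * M) : FB (p * M)) : LaurentSeries Qb).order = -1
    rw [ff_coe_jBar, order_jqModC]
  have h1' : ((jN M p : FB (p * M)) : LaurentSeries Qb) ≠ 0 := by
    intro h
    rw [h] at h1
    simp at h1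
  have hc : (jqModC Qb).coeff (-1) ≠ 0 := by
    have := (HahnSeries.coeff_order_eq_zero (x := jqModC Qb)).not.2 (by
      intro h
      have h2 := order_jqModC Qb
      rw [h] at h2
      simp at h2)
    rwa [order_jqModC] at this
  have h2c : ((jQ M p : FB (p * M)) : LaurentSeries Qb).coeff ((p : ℤ) * (-1)) ≠ 0 := by
    change ((jBarD (p * M) p (dvd_mul_right p M) : FB (p * M)) : LaurentSeries Qb).coeff _ ≠ 0
    rw [ff_coe_jBarD, qExpand_coeff_mul]
    exact hc
  have h2 : ((jQ M p : FB (p * M)) : LaurentSeries Qb).order ≤ (p : ℤ) * (-1) :=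
    HahnSeries.order_le_of_coeff_ne_zero h2c
  have h2' : ((jQ M p : FB (p * M)) : LaurentSeries Qb) ≠ 0 := by
    intro h
    rw [h] at h2c
    simp at h2c
  have h3 : ((jN M p * jQ M p : FB (p * M)) : LaurentSeries Qb).order
      = ((jN M p : FB (p * M)) : LaurentSeries Qb).order
        + ((jQ M p : FB (p * M)) : LaurentSeries Qb).order := HahnSeries.order_mul h1' h2'
  rw [h3, h1]
  have : (0 : ℤ) ≤ p := Int.natCast_nonneg p
  omega

variable {M p : ℕ} [NeZero M] [NeZero p] [hpF : Fact p.Prime] {hpM : ¬ p ∣ M}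
variable {A : ValuationSubring Qb}
variable {R : RedG A (IsLocalRing.residue A) (FB (p * M)) (FT A M × FT A M)}

theorem FX_eval_aux (hA : A.LiesOverPrime p) (hR : IsQRed2 M p hpM A R) (f : R.O) (m : ℕ)
    (hf : ((f : R.O) : FB (p * M)) ∈ riemannRochSpace (maE Qb (jN M p * jQ M p) 0 m))
    (a : A) (ha : R.red (R.const a * f) = 0)
    (hac : (a : Qb) * (((f : R.O) : FB (p * M)) : LaurentSeries Qb).coeff 0 = 1) : False := by
  have hk := isAlgClosed_kk A
  obtain ⟨x, hxe, hxr⟩ := exists_xO hR hA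
  obtain ⟨v, mm, hmm, hv⟩ := FX_exists_cusp (p * M)
  have hFF := isFF_FB (p * M)
  have hx0 : jN M p * jQ M p ≠ 0 := by
    intro h
    have := FX_order_x_neg M p
    rw [h] at this
    simp at this
  have hvx : v.ord ((x : R.O) : FB (p * M)) < 0 := by
    rw [hxe]
    have h1 := FX_order_x_neg M p
    rw [hv _ hx0] at h1
    by_contra hcon
    push Not at hcon
    have : (0 : ℤ) ≤ mm * v.ord (jN M p * jQ M p) := mul_nonneg (Int.natCast_nonneg _) hcon
    omega
  have ht : Transcendental (kk A) (jT A M ^ (p + 1)) :=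
    DG_transcendental_pow (transcendental_jT A M) (Nat.succ_pos p)
  set g : R.O := 1 - R.const a * f with hg
  have hgr : R.red g = 1 := by rw [hg, map_sub, map_one, ha, sub_zero]
  have hgL : ((g : R.O) : FB (p * M)) ∈
      riemannRochSpace (maE Qb ((x : R.O) : FB (p * M)) 0 m) := by
    rw [hxe]
    have e : ((g : R.O) : FB (p * M)) = 1 - (a : Qb) • ((f : R.O) : FB (p * M)) := by
      rw [hg, Algebra.smul_def]
      rfl
    rw [e]
    exact Submodule.sub_mem _ (ma_one_mem hFF _ _ _) (Submodule.smul_mem _ _ hf)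
  have hdeg : Module.finrank Qb⟮((x : R.O) : FB (p * M))⟯ (FB (p * M)) ≤
      Module.finrank (kk A)⟮(R.red x).1⟯ (FT A M) + Module.finrank (kk A)⟮(R.red x).2⟯ (FT A M) := by
    rw [hxe, hxr]
    change _ ≤ Module.finrank (kk A)⟮jT A M ^ (p + 1)⟯ (FT A M)
      + Module.finrank (kk A)⟮jT A M ^ (p + 1)⟯ (FT A M)
    rw [finrank_jT_pow M A (p + 1) (Nat.succ_pos p), finrank_jT_eq hpM A hA]
    have := finrank_x_le M p hpM
    omega
  have h0 := FX_no_zero hFF (isFF_FT A M) R x (by rw [hxr]; exact ht) (by rw [hxr]; exact ht) hdeg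
    g hgr m hgL v hvx
  have hg0 : ((g : R.O) : FB (p * M)) ≠ 0 := by
    intro h
    have : g = 0 := Subtype.ext h
    rw [this, map_zero] at hgr
    exact zero_ne_one hgr
  have hord := hv _ hg0
  rw [h0, mul_zero] at hord
  have hgL0 : (((g : R.O) : FB (p * M)) : LaurentSeries Qb) ≠ 0 := fun h => hg0 (Subtype.ext h)
  have hc := HahnSeries.coeff_order_eq_zero.not.2 hgL0
  rw [hord] at hc
  apply hc
  have e : (((g : R.O) : FB (p * M)) : LaurentSeries Qb)
      = 1 - HahnSeries.C (a : Qb) * (((f : R.O) : FB (p * M)) : LaurentSeries Qb) := by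
    rw [← algebraMap_eq_C]
    rfl
  rw [e, HahnSeries.coeff_sub, HahnSeries.C_mul_eq_smul, HahnSeries.coeff_smul, smul_eq_mul, hac,
    HahnSeries.coeff_one, if_pos rfl, sub_self]

/-- (FX10) `S40/Fix/Eval.lean` : (EV) integral functions whose poles are zeros of `x = j_N j_Q` are
power series in `q` with integral constant coefficient, compatible with the reduction -/
theorem FX_eval (hA : A.LiesOverPrime p) (hR : IsQRed2 M p hpM A R) (f : R.O) (m : ℕ)
    (hf : ((f : R.O) : FB (p * M)) ∈ riemannRochSpace (maE Qb (jN M p * jQ M p) 0 m)) :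
    ∃ P : PowerSeries Qb, (((f : R.O) : FB (p * M)) : LaurentSeries Qb) = (P : LaurentSeries Qb) ∧
      ∃ hc : PowerSeries.constantCoeff P ∈ A,
        (R.red f = 0 → IsLocalRing.residue A ⟨_, hc⟩ = 0) := by
  obtain ⟨v, mm, hmm, hv⟩ := FX_exists_cusp (p * M)
  have hFF := isFF_FB (p * M)
  have hx0 : jN M p * jQ M p ≠ 0 := by
    intro h
    have := FX_order_x_neg M p
    rw [h] at this
    simp at this
  have hvx : v.ord (jN M p * jQ M p) < 0 := by
    have h1 := FX_order_x_neg M p
    rw [hv _ hx0] at h1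
    by_contra hcon
    push Not at hcon
    have : (0 : ℤ) ≤ mm * v.ord (jN M p * jQ M p) := mul_nonneg (Int.natCast_nonneg _) hcon
    omega
  have hord : 0 ≤ (((f : R.O) : FB (p * M)) : LaurentSeries Qb).order := by
    by_cases hf0 : ((f : R.O) : FB (p * M)) = 0
    · rw [hf0]
      simp
    rw [hv _ hf0]
    have h1 := (mem_L_iff.1 hf) v
    rw [maE_apply hFF, max_eq_right hvx.le] at h1
    rcases h1 with h1 | h1
    · exact absurd h1 hf0
    · exact mul_nonneg (Int.natCast_nonneg _) (by simpa using h1)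
  obtain ⟨P, hP, hPc⟩ := FX_exists_powerSeries _ hord
  have hinv : ∀ c : Qb, c ∉ A → ∃ a : A, (a : Qb) = c⁻¹ ∧ IsLocalRing.residue A a = 0 := by
    intro c hcA
    have hci : c⁻¹ ∈ A := (A.mem_or_inv_mem c).resolve_left hcA
    refine ⟨⟨c⁻¹, hci⟩, rfl, ?_⟩
    rw [IsLocalRing.residue_eq_zero_iff, IsLocalRing.mem_maximalIdeal, mem_nonunits_iff]
    rintro ⟨u, hu⟩
    apply hcA
    have h1 : ((u⁻¹ : Aˣ) : A) * (⟨c⁻¹, hci⟩ : A) = 1 := by rw [← hu]; exact u.inv_mul
    have h2 : (((u⁻¹ : Aˣ) : A) : Qb) * c⁻¹ = 1 := by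
      have := congrArg (fun t : A => (t : Qb)) h1
      simpa using this
    have hc0 : c ≠ 0 := by
      rintro rfl
      exact hcA A.zero_mem
    have h3 : (((u⁻¹ : Aˣ) : A) : Qb) = c := by
      field_simp at h2
      exact h2
    rw [← h3]
    exact ((u⁻¹ : Aˣ) : A).2
  have hcA : PowerSeries.constantCoeff P ∈ A := by
    by_contra hcon
    obtain ⟨a, ha, har⟩ := hinv _ hcon
    have hc0 : PowerSeries.constantCoeff P ≠ 0 := by
      intro h
      rw [h] at hcon
      exact hcon A.zero_mem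
    refine FX_eval_aux hA hR f m hf a ?_ ?_
    · rw [map_mul, RedG.red_const, har, map_zero, zero_mul]
    · rw [ha, ← hPc, inv_mul_cancel₀ hc0]
  refine ⟨P, hP, hcA, fun hred => ?_⟩
  by_contra hcon
  have hu : IsUnit (⟨_, hcA⟩ : A) := by
    by_contra hnu
    exact hcon ((IsLocalRing.residue_eq_zero_iff _).2 ((IsLocalRing.mem_maximalIdeal _).2 hnu))
  obtain ⟨u, hu⟩ := hu
  refine FX_eval_aux hA hR f m hf ((u⁻¹ : Aˣ) : A) ?_ ?_
  · rw [map_mul, hred, mul_zero]
  · rw [← hPc]
    have h1 : ((u⁻¹ : Aˣ) : A) * (⟨_, hcA⟩ : A) = 1 := by rw [← hu]; exact u.inv_mul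
    have := congrArg (fun t : A => (t : Qb)) h1
    simpa using this

end

end Fermat.Agent.S40Lib
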