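import Fermat.Agent.S40.GapwInertia
import Fermat.Agent.S40.GapwToric
import Fermat.Agent.S34.DegLe2
import Fermat.Agent.S36.Inst.ZT
import Fermat.Agent.S24.PlaceOfOrder

/-!
# S40 / S44, COV, block (FIX), leaf (FX1): the degree trick
-/

set_option autoImplicit false
set_option synthInstance.maxHeartbeats 400000
set_option linter.unusedSectionVars false
set_option maxHeartbeats 400000

open AlgebraicCurve IntermediateField ModularCurve
  Fermat.Agent.S24Lib Fermat.Agent.FFLib Fermat.Agent.S18Lib Fermat.Agent.S28Lib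
  Fermat.Agent.ESLib Fermat.Agent.S34Lib Fermat.Agent.S36Lib Fermat.Agent.S33Lib

namespace Fermat.Agent.S40Lib

section abstract

variable {K k F Φ : Type*} [Field K] [Field k] [Field F] [Algebra K F] [CommRing Φ] [Algebra k Φ]
  {A : ValuationSubring K} {resK : A →+* k}

/-- (FX1) `S40/Fix/NoZero.lean` : the degree trick.  A function with reduction `1` whose poles are
zeros of `x` has no zero at a pole of `x`. -/
theorem FX_no_zero {Ft : Type*} [Field Ft] [Algebra k Ft] (hF : IsFF K F) (hFt : IsFF k Ft)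
    [IsAlgClosed K] [IsAlgClosed k]
    (R : RedG A resK F (Ft × Ft)) (x : R.O) (hx₁ : Transcendental k (R.red x).1)
    (hx₂ : Transcendental k (R.red x).2)
    (hdeg : Module.finrank K⟮((x : R.O) : F)⟯ F ≤
      Module.finrank k⟮(R.red x).1⟯ Ft + Module.finrank k⟮(R.red x).2⟯ Ft)
    (g : R.O) (hg : R.red g = 1) (m : ℕ)
    (hgL : ((g : R.O) : F) ∈ riemannRochSpace (maE K ((x : R.O) : F) 0 m))
    (v : Place K F) (hv : v.ord ((x : R.O) : F) < 0) : v.ord ((g : R.O) : F) = 0 := by
  classical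
  have hxK := transcendental_of_red2 R x hx₁
  have hG0 : ((g : R.O) : F) ≠ 0 := by
    intro h0
    have : g = 0 := Subtype.ext h0
    rw [this, map_zero] at hg
    exact zero_ne_one hg
  have hX0 : ((x : R.O) : F) ≠ 0 := by
    intro h
    rw [h] at hxK
    exact hxK isAlgebraic_zero
  have hgo : ∀ w : Place K F, -((m : ℤ) * max (w.ord ((x : R.O) : F)) 0) ≤ w.ord ((g : R.O) : F) := by
    intro w
    have := (mem_L_iff.1 hgL) w
    rw [maE_apply hF] at this
    rcases this with h | h
    · exact absurd h hG0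
    · simpa using h
  have h0 : 0 ≤ v.ord ((g : R.O) : F) := by
    have := hgo v
    rw [max_eq_right hv.le] at this
    simpa using this
  by_contra hne
  have h1 : 1 ≤ v.ord ((g : R.O) : F) := by
    have : v.ord ((g : R.O) : F) ≠ 0 := hne
    omega
  set Mm : ℕ := max m 1 with hMm
  have hMpos : 0 < Mm := lt_of_lt_of_le one_pos (le_max_right _ _)
  have hmM : (m : ℤ) ≤ Mm := by exact_mod_cast le_max_left m 1
  set z : R.O := x ^ Mm * g with hz
  have hredz : R.red z = R.red x ^ Mm := by rw [hz, map_mul, map_pow, hg, mul_one]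
  have hz1 : (R.red z).1 = (R.red x).1 ^ Mm := by rw [hredz]; rfl
  have hz2 : (R.red z).2 = (R.red x).2 ^ Mm := by rw [hredz]; rfl
  have hzt₁ : Transcendental k (R.red z).1 := by
    rw [hz1]; exact DG_transcendental_pow hx₁ hMpos
  have hzt₂ : Transcendental k (R.red z).2 := by
    rw [hz2]; exact DG_transcendental_pow hx₂ hMpos
  have key := finrank_red_le2 hF hFt R z hzt₁ hzt₂
  rw [hz1, hz2, DG_finrank_pow hFt hx₁ hMpos, DG_finrank_pow hFt hx₂ hMpos] at key
  have hzK := transcendental_of_red2 R z hzt₁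
  have hzc : ((z : R.O) : F) = ((x : R.O) : F) ^ Mm * ((g : R.O) : F) := by
    rw [hz]; push_cast; rfl
  have hle : (0 : Divisor K F) ≤ Mm • poleDiv K ((x : R.O) : F) - poleDiv K ((z : R.O) : F)
      - Finsupp.single v 1 := by
    intro w
    rw [Finsupp.sub_apply, Finsupp.sub_apply, Finsupp.smul_apply, poleDiv_apply hF,
      poleDiv_apply hF, hzc, w.ord_mul (pow_ne_zero _ hX0) hG0, wa_ord_pow, Finsupp.zero_apply,
      nsmul_eq_mul]
    have hw := hgo w
    have hMz : (1 : ℤ) ≤ Mm := by exact_mod_cast hMpos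
    by_cases hwv : w = v
    · subst hwv
      rw [Finsupp.single_eq_same, max_eq_left (by omega : (0 : ℤ) ≤ -w.ord ((x : R.O) : F))]
      have h2 : (Mm : ℤ) * 1 ≤ Mm * -w.ord ((x : R.O) : F) :=
        mul_le_mul_of_nonneg_left (by omega) (by omega)
      rcases max_cases (-((Mm : ℤ) * w.ord ((x : R.O) : F) + w.ord ((g : R.O) : F))) 0 with
        ⟨e, -⟩ | ⟨e, -⟩
      · rw [e]; linarith
      · rw [e]; linarith
    · rw [Finsupp.single_eq_of_ne hwv]
      rcases lt_or_ge (w.ord ((x : R.O) : F)) 0 with hx | hx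
      · rw [max_eq_right hx.le] at hw
        rw [max_eq_left (by omega : (0 : ℤ) ≤ -w.ord ((x : R.O) : F))]
        have h2 : (0 : ℤ) ≤ Mm * -w.ord ((x : R.O) : F) := mul_nonneg (by omega) (by omega)
        rcases max_cases (-((Mm : ℤ) * w.ord ((x : R.O) : F) + w.ord ((g : R.O) : F))) 0 with
          ⟨e, -⟩ | ⟨e, -⟩
        · rw [e]; linarith
        · rw [e]; linarith
      · rw [max_eq_left hx] at hw
        rw [max_eq_right (by omega : -w.ord ((x : R.O) : F) ≤ 0)]
        have h2 : (m : ℤ) * w.ord ((x : R.O) : F) ≤ Mm * w.ord ((x : R.O) : F) :=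
          mul_le_mul_of_nonneg_right hmM hx
        rw [max_eq_right (by linarith)]
        simp
  have hd := dg_degree_nonneg hF hle
  rw [map_sub, map_sub, map_nsmul, degree_poleDiv hF hxK, degree_poleDiv hF hzK,
    degree_single' hF, nsmul_eq_mul] at hd
  have h3 : (Mm : ℤ) * (Module.finrank K⟮((x : R.O) : F)⟯ F : ℤ) ≤
      Mm * ((Module.finrank k⟮(R.red x).1⟯ Ft : ℤ) + (Module.finrank k⟮(R.red x).2⟯ Ft : ℤ)) :=
    mul_le_mul_of_nonneg_left (by exact_mod_cast hdeg) (by positivity)
  have h4 : (Mm : ℤ) * (Module.finrank k⟮(R.red x).1⟯ Ft : ℤ)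
      + Mm * (Module.finrank k⟮(R.red x).2⟯ Ft : ℤ) ≤ (Module.finrank K⟮((z : R.O) : F)⟯ F : ℤ) := by
    exact_mod_cast key
  linarith

end abstract

end Fermat.Agent.S40Lib
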